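import Fermat.Agent.S53.RepDefs

set_option autoImplicit false
set_option linter.style.haveILetI false
set_option linter.unusedSectionVars false

namespace Fermat.Agent.S53.Rep

open IsLocalRing GaloisRep

section

variable {𝒪 : Type} [CommRing 𝒪] [IsLocalRing 𝒪]

/-- The residue field of a test algebra is finite. -/
theorem finite_residueField_of_surjective [Finite (ResidueField 𝒪)] {A : Type} [CommRing A]
    [IsLocalRing A] [Algebra 𝒪 A] (hloc : IsLocalHom (algebraMap 𝒪 A))
    (hs : Function.Surjective (IsLocalRing.residue A ∘ algebraMap 𝒪 A)) :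
    Finite (ResidueField A) := by
  haveI := hloc
  refine Finite.of_surjective (ResidueField.map (algebraMap 𝒪 A)) ?_
  intro y
  obtain ⟨o, ho⟩ := hs y
  exact ⟨residue 𝒪 o, by rw [ResidueField.map_residue]; exact ho⟩

theorem test_exists_pow_eq_bot {A : Type} [CommRing A]
    [IsLocalRing A] [Algebra 𝒪 A] (h : IsArtinianTestAlgebra 𝒪 A) :
    ∃ n, maximalIdeal A ^ n = ⊥ := by
  haveI := h.isArtinian
  obtain ⟨n, hn⟩ := IsArtinianRing.isNilpotent_jacobson_bot (R := A)
  rw [jacobson_eq_maximalIdeal _ bot_ne_top] at hn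
  exact ⟨n, hn⟩

/-- Test algebras are finite sets. -/
theorem test_finite [Finite (ResidueField 𝒪)] {A : Type} [CommRing A]
    [IsLocalRing A] [Algebra 𝒪 A] (h : IsArtinianTestAlgebra 𝒪 A) : Finite A := by
  haveI := h.isArtinian
  haveI := finite_residueField_of_surjective h.isLocalHom h.residue_surjective
  obtain ⟨n, hn⟩ := test_exists_pow_eq_bot h
  haveI : Finite (A ⧸ (⊥ : Ideal A)) := finite_quotient_iff.mpr ⟨n, hn.le⟩
  exact Finite.of_equiv _ (RingEquiv.quotientBot A).toEquiv

/-- Any `𝒪`-algebra map to a local algebra with residue field `k` is local. -/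
theorem isLocalHom_algHom {A B : Type} [CommRing A] [IsLocalRing A] [Algebra 𝒪 A]
    [CommRing B] [IsLocalRing B] [Algebra 𝒪 B]
    (hB : Function.Surjective (IsLocalRing.residue B ∘ algebraMap 𝒪 B)) (φ : A →ₐ[𝒪] B) :
    IsLocalHom (φ : A →+* B) := by
  have hsurj : Function.Surjective ((residue B).comp (φ : A →+* B)) := by
    intro y
    obtain ⟨o, ho⟩ := hB y
    exact ⟨algebraMap 𝒪 A o, by simpa using ho⟩
  have hmax := RingHom.ker_isMaximal_of_surjective _ hsurj
  have hker := IsLocalRing.eq_maximalIdeal hmax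
  constructor
  intro a ha
  by_contra hna
  have h1 : a ∈ maximalIdeal A := (mem_maximalIdeal a).mpr hna
  rw [← hker, RingHom.mem_ker] at h1
  have h2 : (φ : A →+* B) a ∈ maximalIdeal B := (residue_eq_zero_iff _).mp h1
  exact (mem_maximalIdeal _).mp h2 ha

theorem map_mem_maximalIdeal {A B : Type} [CommRing A] [IsLocalRing A] [Algebra 𝒪 A]
    [CommRing B] [IsLocalRing B] [Algebra 𝒪 B]
    (hB : Function.Surjective (IsLocalRing.residue B ∘ algebraMap 𝒪 B)) (φ : A →ₐ[𝒪] B)
    {a : A} (ha : a ∈ maximalIdeal A) : φ a ∈ maximalIdeal B := by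
  haveI := isLocalHom_algHom hB φ
  exact map_nonunit (φ : A →+* B) a ha

theorem map_mem_maximalIdeal_pow {A B : Type} [CommRing A] [IsLocalRing A] [Algebra 𝒪 A]
    [CommRing B] [IsLocalRing B] [Algebra 𝒪 B]
    (hB : Function.Surjective (IsLocalRing.residue B ∘ algebraMap 𝒪 B)) (φ : A →ₐ[𝒪] B)
    {a : A} {n : ℕ} (ha : a ∈ maximalIdeal A ^ n) : φ a ∈ maximalIdeal B ^ n := by
  have h1 : (maximalIdeal A).map (φ : A →+* B) ≤ maximalIdeal B := by
    rw [Ideal.map_le_iff_le_comap]
    intro x hx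
    exact map_mem_maximalIdeal hB φ hx
  have h2 : (maximalIdeal A ^ n).map (φ : A →+* B) ≤ maximalIdeal B ^ n := by
    rw [Ideal.map_pow]
    exact Ideal.pow_right_mono h1 n
  exact h2 (Ideal.mem_map_of_mem _ ha)

/-- The residue field is a test algebra. -/
theorem isTest_residueField : IsArtinianTestAlgebra 𝒪 (ResidueField 𝒪) where
  isLocalHom := by
    change IsLocalHom (residue 𝒪)
    infer_instance
  residue_surjective := by
    intro y
    obtain ⟨z, rfl⟩ := residue_surjective y
    obtain ⟨o, rfl⟩ := residue_surjective z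
    exact ⟨o, rfl⟩
  isArtinian := inferInstance

/-- A nontrivial quotient of a local algebra with the test properties. -/
theorem isTest_of_surjective {A B : Type} [CommRing A] [IsLocalRing A] [Algebra 𝒪 A]
    [CommRing B] [IsLocalRing B] [Algebra 𝒪 B]
    (hloc : IsLocalHom (algebraMap 𝒪 A))
    (hs : Function.Surjective (IsLocalRing.residue A ∘ algebraMap 𝒪 A))
    (φ : A →ₐ[𝒪] B) (hφ : Function.Surjective φ) (hart : IsArtinianRing B) :
    IsArtinianTestAlgebra 𝒪 B where
  isLocalHom := by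
    haveI := hloc
    haveI : IsLocalHom (φ : A →+* B) := IsLocalHom.of_surjective _ hφ
    have : algebraMap 𝒪 B = (φ : A →+* B).comp (algebraMap 𝒪 A) := by
      ext o; simp
    rw [this]
    infer_instance
  residue_surjective := by
    intro y
    obtain ⟨b, rfl⟩ := residue_surjective y
    obtain ⟨a, rfl⟩ := hφ b
    obtain ⟨o, ho⟩ := hs (residue A a)
    refine ⟨o, ?_⟩
    have h1 : algebraMap 𝒪 A o - a ∈ maximalIdeal A := by
      rw [← residue_eq_zero_iff, map_sub, sub_eq_zero]; exact ho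
    haveI : IsLocalHom (φ : A →+* B) := IsLocalHom.of_surjective _ hφ
    have h2 : (φ : A →+* B) (algebraMap 𝒪 A o - a) ∈ maximalIdeal B := map_nonunit _ _ h1
    have h3 : algebraMap 𝒪 B o - φ a ∈ maximalIdeal B := by simpa using h2
    rw [← residue_eq_zero_iff, map_sub, sub_eq_zero] at h3
    exact h3
  isArtinian := hart


theorem isLocalRing_quotient {A : Type} [CommRing A] [IsLocalRing A] {I : Ideal A}
    (hI : I ≠ ⊤) : IsLocalRing (A ⧸ I) := by
  have : Nontrivial (A ⧸ I) := Ideal.Quotient.nontrivial_iff.mpr hI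
  exact IsLocalRing.of_surjective' (Ideal.Quotient.mk I) Ideal.Quotient.mk_surjective

theorem maximalIdeal_quotient {A : Type} [CommRing A] [IsLocalRing A] {I : Ideal A}
    [IsLocalRing (A ⧸ I)] :
    maximalIdeal (A ⧸ I) = (maximalIdeal A).map (Ideal.Quotient.mk I) := by
  have := IsLocalHom.of_surjective (Ideal.Quotient.mk I) Ideal.Quotient.mk_surjective
  have hI : I ≠ ⊤ := Ideal.Quotient.nontrivial_iff.mp inferInstance
  ext x
  obtain ⟨x, rfl⟩ := Ideal.Quotient.mk_surjective x
  simp [sup_eq_left.mpr (le_maximalIdeal hI)]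

theorem pow_succ_ne_top {A : Type} [CommRing A] [IsLocalRing A] (n : ℕ) :
    maximalIdeal A ^ (n + 1) ≠ ⊤ := by
  intro h
  have : maximalIdeal A ^ (n + 1) ≤ maximalIdeal A := Ideal.pow_le_self (by omega)
  rw [h] at this
  exact (maximalIdeal.isMaximal A).ne_top (top_le_iff.mp this)

theorem isArtinianRing_quotient_pow {A : Type} [CommRing A] [IsLocalRing A] [IsNoetherianRing A]
    (n : ℕ) : IsArtinianRing (A ⧸ maximalIdeal A ^ (n + 1)) := by
  have := isLocalRing_quotient (pow_succ_ne_top (A := A) n)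
  rw [isArtinianRing_iff_isNilpotent_maximalIdeal]
  refine ⟨n + 1, ?_⟩
  rw [maximalIdeal_quotient, ← Ideal.map_pow, Ideal.zero_eq_bot, Ideal.map_eq_bot_iff_le_ker,
    Ideal.mk_ker]


instance finite_dualNumber (k : Type) [Finite k] : Finite (DualNumber k) :=
  inferInstanceAs (Finite (k × k))

theorem dualNumber_mem_maximalIdeal {k : Type} [Field k] (x : DualNumber k) :
    x ∈ maximalIdeal (DualNumber k) ↔ x.fst = 0 := by
  rw [mem_maximalIdeal, mem_nonunits_iff, TrivSqZeroExt.isUnit_iff_isUnit_fst, isUnit_iff_ne_zero,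
    not_not]

theorem dualAlg_algebraMap_apply (o : 𝒪) :
    letI := dualAlg 𝒪
    algebraMap 𝒪 (DualNumber (ResidueField 𝒪)) o = TrivSqZeroExt.inl (residue 𝒪 o) := rfl

theorem isTest_dualNumber [Finite (ResidueField 𝒪)] :
    letI := dualAlg 𝒪
    IsArtinianTestAlgebra 𝒪 (DualNumber (ResidueField 𝒪)) := by
  letI := dualAlg 𝒪
  refine ⟨⟨fun o ho => ?_⟩, ?_, inferInstance⟩
  · rw [dualAlg_algebraMap_apply, TrivSqZeroExt.isUnit_iff_isUnit_fst, TrivSqZeroExt.fst_inl] at ho
    exact (isUnit_map_iff (residue 𝒪) o).mp ho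
  · intro y
    obtain ⟨x, rfl⟩ := residue_surjective y
    obtain ⟨o, ho⟩ := residue_surjective x.fst
    refine ⟨o, ?_⟩
    change residue _ (algebraMap 𝒪 (DualNumber (ResidueField 𝒪)) o) = residue _ x
    rw [← sub_eq_zero, ← map_sub, residue_eq_zero_iff, dualNumber_mem_maximalIdeal,
      dualAlg_algebraMap_apply, TrivSqZeroExt.fst_sub, TrivSqZeroExt.fst_inl, ho, sub_self]

end

end Fermat.Agent.S53.Rep
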