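import Fermat.Agent.S53.Rep.TestAlg

set_option autoImplicit false
set_option linter.style.haveILetI false
set_option linter.unusedSectionVars false

namespace Fermat.Agent.S53.Rep

open IsLocalRing GaloisRep

section

variable {𝒪 : Type} [CommRing 𝒪] [IsLocalRing 𝒪] {X : Type} (f0 : X → 𝒪)

/-- Evaluation of polynomials at the residual point. -/
noncomputable def evk : MvPolynomial X 𝒪 →ₐ[𝒪] ResidueField 𝒪 :=
  MvPolynomial.aeval (fun x => residue 𝒪 (f0 x))

/-- The maximal ideal of the polynomial ring given by the residual point. -/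
noncomputable def mLam : Ideal (MvPolynomial X 𝒪) := RingHom.ker (evk f0)

theorem evk_surjective : Function.Surjective (evk f0) := by
  intro y
  obtain ⟨o, rfl⟩ := residue_surjective y
  exact ⟨MvPolynomial.C o, by simp [evk]⟩

instance mLam_isMaximal : (mLam f0).IsMaximal :=
  RingHom.ker_isMaximal_of_surjective _ (evk_surjective f0)

theorem mem_mLam {p : MvPolynomial X 𝒪} : p ∈ mLam f0 ↔ evk f0 p = 0 := RingHom.mem_ker

theorem C_mem_mLam {o : 𝒪} : MvPolynomial.C o ∈ mLam f0 ↔ o ∈ maximalIdeal 𝒪 := by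
  rw [mem_mLam, ← residue_eq_zero_iff]
  simp [evk]

theorem exists_sub_C_mem_mLam (p : MvPolynomial X 𝒪) : ∃ o : 𝒪, p - MvPolynomial.C o ∈ mLam f0 := by
  obtain ⟨o, ho⟩ := residue_surjective (evk f0 p)
  refine ⟨o, ?_⟩
  rw [mem_mLam, map_sub, sub_eq_zero, ← ho]
  simp [evk]

/-- The preimage of the maximal ideal under evaluation at a lift of the residual point. -/
theorem comap_aeval_maximalIdeal {A : Type} [CommRing A] [IsLocalRing A] [Algebra 𝒪 A]
    (hloc : IsLocalHom (algebraMap 𝒪 A)) (f : X → A)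
    (hf : ∀ x, f x - algebraMap 𝒪 A (f0 x) ∈ maximalIdeal A) :
    (maximalIdeal A).comap (MvPolynomial.aeval f : MvPolynomial X 𝒪 →ₐ[𝒪] A) = mLam f0 := by
  have := hloc
  have key : (residue A).comp
        ((MvPolynomial.aeval f : MvPolynomial X 𝒪 →ₐ[𝒪] A) : MvPolynomial X 𝒪 →+* A) =
      (ResidueField.map (algebraMap 𝒪 A)).comp
        ((evk f0 : MvPolynomial X 𝒪 →ₐ[𝒪] ResidueField 𝒪) :
          MvPolynomial X 𝒪 →+* ResidueField 𝒪) := by
    apply MvPolynomial.ringHom_ext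
    · intro o
      simp [evk]
    · intro x
      have h := hf x
      rw [← residue_eq_zero_iff, map_sub, sub_eq_zero] at h
      simp [evk, h]
  ext p
  rw [Ideal.mem_comap, ← residue_eq_zero_iff, mem_mLam]
  have h := congrArg (fun g => g p) key
  simp only [RingHom.comp_apply, RingHom.coe_coe] at h
  rw [h, map_eq_zero]

/-- Admissible ideals: those for which the quotient is a finite local ring with maximal
ideal coming from `mLam`. -/
structure Adm (I : Ideal (MvPolynomial X 𝒪)) : Prop where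
  le : I ≤ mLam f0
  pow_le : ∃ n, mLam f0 ^ n ≤ I
  finite : Finite (MvPolynomial X 𝒪 ⧸ I)

variable {f0}

theorem Adm.isLocalRing {I : Ideal (MvPolynomial X 𝒪)} (h : Adm f0 I) :
    IsLocalRing (MvPolynomial X 𝒪 ⧸ I) := by
  have hmax : ((mLam f0).map (Ideal.Quotient.mk I)).IsMaximal :=
    Ideal.IsMaximal.map_of_surjective_of_ker_le Ideal.Quotient.mk_surjective (by simpa using h.le)
  refine IsLocalRing.of_unique_max_ideal ⟨_, hmax, fun M hM => ?_⟩
  have hM' : (M.comap (Ideal.Quotient.mk I)).IsMaximal :=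
    Ideal.comap_isMaximal_of_surjective _ Ideal.Quotient.mk_surjective
  obtain ⟨n, hn⟩ := h.pow_le
  have h1 : mLam f0 ^ n ≤ M.comap (Ideal.Quotient.mk I) := by
    refine hn.trans ?_
    intro x hx
    rw [Ideal.mem_comap, Ideal.Quotient.eq_zero_iff_mem.mpr hx]
    exact M.zero_mem
  have h2 : mLam f0 ≤ M.comap (Ideal.Quotient.mk I) := hM'.isPrime.le_of_pow_le h1
  have h3 : mLam f0 = M.comap (Ideal.Quotient.mk I) :=
    (mLam_isMaximal f0).eq_of_le hM'.ne_top h2
  rw [h3, Ideal.map_comap_of_surjective _ Ideal.Quotient.mk_surjective]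

theorem Adm.maximalIdeal_eq {I : Ideal (MvPolynomial X 𝒪)} (h : Adm f0 I)
    [IsLocalRing (MvPolynomial X 𝒪 ⧸ I)] :
    maximalIdeal (MvPolynomial X 𝒪 ⧸ I) = (mLam f0).map (Ideal.Quotient.mk I) := by
  have hmax : ((mLam f0).map (Ideal.Quotient.mk I)).IsMaximal :=
    Ideal.IsMaximal.map_of_surjective_of_ker_le Ideal.Quotient.mk_surjective (by simpa using h.le)
  exact (IsLocalRing.eq_maximalIdeal hmax).symm

theorem Adm.mk_mem_maximalIdeal {I : Ideal (MvPolynomial X 𝒪)} (h : Adm f0 I)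
    [IsLocalRing (MvPolynomial X 𝒪 ⧸ I)] (p : MvPolynomial X 𝒪) :
    Ideal.Quotient.mk I p ∈ maximalIdeal (MvPolynomial X 𝒪 ⧸ I) ↔ p ∈ mLam f0 := by
  rw [h.maximalIdeal_eq, Ideal.mem_map_iff_of_surjective _ Ideal.Quotient.mk_surjective]
  constructor
  · rintro ⟨q, hq, hqp⟩
    have : q - p ∈ I := Ideal.Quotient.eq.mp hqp
    have h2 := (mLam f0).sub_mem hq (h.le this)
    simpa using h2
  · intro hp
    exact ⟨p, hp, rfl⟩

theorem Adm.isTest {I : Ideal (MvPolynomial X 𝒪)} (h : Adm f0 I)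
    [IsLocalRing (MvPolynomial X 𝒪 ⧸ I)] :
    IsArtinianTestAlgebra 𝒪 (MvPolynomial X 𝒪 ⧸ I) where
  isLocalHom := by
    constructor
    intro o ho
    by_contra hno
    have h1 : o ∈ maximalIdeal 𝒪 := (mem_maximalIdeal o).mpr hno
    have h2 : Ideal.Quotient.mk I (MvPolynomial.C o) ∈ maximalIdeal (MvPolynomial X 𝒪 ⧸ I) :=
      (h.mk_mem_maximalIdeal _).mpr ((C_mem_mLam f0).mpr h1)
    exact (mem_maximalIdeal _).mp h2 ho
  residue_surjective := by
    intro y
    obtain ⟨b, rfl⟩ := residue_surjective y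
    obtain ⟨p, rfl⟩ := Ideal.Quotient.mk_surjective b
    obtain ⟨o, ho⟩ := exists_sub_C_mem_mLam f0 p
    refine ⟨o, ?_⟩
    have h2 := (h.mk_mem_maximalIdeal _).mpr ho
    rw [← residue_eq_zero_iff, map_sub, map_sub, sub_eq_zero] at h2
    exact h2.symm
  isArtinian := by
    have := h.finite
    infer_instance

theorem Adm.mono {I J : Ideal (MvPolynomial X 𝒪)} (h : Adm f0 I) (hIJ : I ≤ J)
    (hJ : J ≤ mLam f0) : Adm f0 J where
  le := hJ
  pow_le := by
    obtain ⟨n, hn⟩ := h.pow_le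
    exact ⟨n, hn.trans hIJ⟩
  finite := by
    have := h.finite
    exact Finite.of_surjective _ (Ideal.Quotient.factor_surjective hIJ)

theorem Adm.inf {I J : Ideal (MvPolynomial X 𝒪)} (hI : Adm f0 I) (hJ : Adm f0 J) :
    Adm f0 (I ⊓ J) where
  le := inf_le_left.trans hI.le
  pow_le := by
    obtain ⟨n, hn⟩ := hI.pow_le
    obtain ⟨m, hm⟩ := hJ.pow_le
    exact ⟨max n m, le_inf ((Ideal.pow_le_pow_right (le_max_left n m)).trans hn)
      ((Ideal.pow_le_pow_right (le_max_right n m)).trans hm)⟩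
  finite := by
    have := hI.finite
    have := hJ.finite
    refine Finite.of_injective (fun x : MvPolynomial X 𝒪 ⧸ (I ⊓ J) =>
      (Ideal.Quotient.factor (inf_le_left : I ⊓ J ≤ I) x,
        Ideal.Quotient.factor (inf_le_right : I ⊓ J ≤ J) x)) ?_
    intro x y hxy
    obtain ⟨p, rfl⟩ := Ideal.Quotient.mk_surjective x
    obtain ⟨q, rfl⟩ := Ideal.Quotient.mk_surjective y
    simp only [Ideal.Quotient.factor_mk, Prod.mk.injEq] at hxy
    rw [Ideal.Quotient.eq] at hxy ⊢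
    rw [Ideal.Quotient.eq] at hxy
    exact ⟨hxy.1, hxy.2⟩

variable (f0) (P : ∀ ⦃A : Type⦄ [CommRing A] [IsLocalRing A] [Algebra 𝒪 A], (X → A) → Prop)

/-- The tautological point of a quotient of the polynomial ring. -/
noncomputable def taut (I : Ideal (MvPolynomial X 𝒪)) : X → MvPolynomial X 𝒪 ⧸ I :=
  fun x => Ideal.Quotient.mk I (MvPolynomial.X x)

/-- The family of admissible ideals whose tautological point satisfies `P`. -/
def Fam (I : Ideal (MvPolynomial X 𝒪)) : Prop :=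
  ∃ h : Adm f0 I, @P (MvPolynomial X 𝒪 ⧸ I) _ h.isLocalRing _ (taut I)

variable {f0 P}

theorem Fam.adm {I : Ideal (MvPolynomial X 𝒪)} (h : Fam f0 P I) : Adm f0 I := h.1

theorem Fam.prop {I : Ideal (MvPolynomial X 𝒪)} (h : Fam f0 P I)
    [IsLocalRing (MvPolynomial X 𝒪 ⧸ I)] : P (taut I) := h.2

theorem Fam.mono (hP : IsRepFunctor 𝒪 X f0 P) {I J : Ideal (MvPolynomial X 𝒪)}
    (h : Fam f0 P I) (hIJ : I ≤ J) (hJ : J ≤ mLam f0) : Fam f0 P J := by
  have hI := h.adm
  have hJ' := hI.mono hIJ hJ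
  refine ⟨hJ', ?_⟩
  have := hI.isLocalRing
  have := hJ'.isLocalRing
  exact hP.push hI.isTest hJ'.isTest (Ideal.Quotient.factorₐ 𝒪 hIJ) h.prop

theorem Fam.inf (hP : IsRepFunctor 𝒪 X f0 P) {I J : Ideal (MvPolynomial X 𝒪)}
    (hI : Fam f0 P I) (hJ : Fam f0 P J) : Fam f0 P (I ⊓ J) := by
  have aI := hI.adm
  have aJ := hJ.adm
  have aQ := aI.inf aJ
  have aC : Adm f0 (I ⊔ J) := aI.mono le_sup_left (sup_le aI.le aJ.le)
  refine ⟨aQ, ?_⟩
  have := aI.isLocalRing
  have := aJ.isLocalRing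
  have := aQ.isLocalRing
  have := aC.isLocalRing
  refine hP.fibre aI.isTest aJ.isTest aC.isTest aQ.isTest
    (Ideal.Quotient.factorₐ 𝒪 (le_sup_left : I ≤ I ⊔ J))
    (Ideal.Quotient.factorₐ 𝒪 (le_sup_right : J ≤ I ⊔ J))
    (Ideal.Quotient.factorₐ 𝒪 (inf_le_left : I ⊓ J ≤ I))
    (Ideal.Quotient.factorₐ 𝒪 (inf_le_right : I ⊓ J ≤ J)) ?_ ?_ ?_ hI.prop hJ.prop
  · apply AlgHom.ext
    intro x
    obtain ⟨p, rfl⟩ := Ideal.Quotient.mk_surjective x
    rfl
  · intro x y hxy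
    obtain ⟨p, rfl⟩ := Ideal.Quotient.mk_surjective x
    obtain ⟨q, rfl⟩ := Ideal.Quotient.mk_surjective y
    have h1 : Ideal.Quotient.mk I p = Ideal.Quotient.mk I q := congrArg Prod.fst hxy
    have h2 : Ideal.Quotient.mk J p = Ideal.Quotient.mk J q := congrArg Prod.snd hxy
    rw [Ideal.Quotient.eq] at h1 h2 ⊢
    exact ⟨h1, h2⟩
  · intro a b hab
    obtain ⟨p, rfl⟩ := Ideal.Quotient.mk_surjective a
    obtain ⟨q, rfl⟩ := Ideal.Quotient.mk_surjective b
    have h1 : Ideal.Quotient.mk (I ⊔ J) p = Ideal.Quotient.mk (I ⊔ J) q := hab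
    rw [Ideal.Quotient.eq, Submodule.mem_sup] at h1
    obtain ⟨u, hu, v, hv, huv⟩ := h1
    refine ⟨Ideal.Quotient.mk (I ⊓ J) (p - u), ?_, ?_⟩
    · change Ideal.Quotient.mk I (p - u) = Ideal.Quotient.mk I p
      rw [Ideal.Quotient.eq]
      simpa using I.neg_mem hu
    · change Ideal.Quotient.mk J (p - u) = Ideal.Quotient.mk J q
      rw [Ideal.Quotient.eq]
      have : p - u - q = v := by linear_combination -huv
      rw [this]; exact hv

theorem adm_ker [Finite (ResidueField 𝒪)] {A : Type} [CommRing A] [IsLocalRing A] [Algebra 𝒪 A]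
    (hA : IsArtinianTestAlgebra 𝒪 A) (f : X → A)
    (hf : ∀ x, f x - algebraMap 𝒪 A (f0 x) ∈ maximalIdeal A) :
    Adm f0 (RingHom.ker (MvPolynomial.aeval f : MvPolynomial X 𝒪 →ₐ[𝒪] A)) where
  le := by
    rw [← comap_aeval_maximalIdeal f0 hA.isLocalHom f hf]
    intro p hp
    rw [Ideal.mem_comap, RingHom.mem_ker.mp hp]
    exact Ideal.zero_mem _
  pow_le := by
    obtain ⟨n, hn⟩ := test_exists_pow_eq_bot hA
    refine ⟨n, ?_⟩
    rw [← comap_aeval_maximalIdeal f0 hA.isLocalHom f hf]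
    refine (Ideal.le_comap_pow _ n).trans ?_
    rw [hn]
    exact le_of_eq rfl
  finite := by
    have := test_finite hA
    exact Finite.of_injective _ (Ideal.kerLiftAlg_injective
      (MvPolynomial.aeval f : MvPolynomial X 𝒪 →ₐ[𝒪] A))

theorem fam_ker [Finite (ResidueField 𝒪)] (hP : IsRepFunctor 𝒪 X f0 P)
    {A : Type} [CommRing A] [IsLocalRing A] [Algebra 𝒪 A]
    (hA : IsArtinianTestAlgebra 𝒪 A) {f : X → A} (hf : P f) :
    Fam f0 P (RingHom.ker (MvPolynomial.aeval f : MvPolynomial X 𝒪 →ₐ[𝒪] A)) := by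
  have a := adm_ker hA f (hP.lift hA hf)
  refine ⟨a, ?_⟩
  have := a.isLocalRing
  refine hP.inj a.isTest hA (Ideal.kerLiftAlg (MvPolynomial.aeval f : MvPolynomial X 𝒪 →ₐ[𝒪] A))
    (Ideal.kerLiftAlg_injective _) ?_
  have : (Ideal.kerLiftAlg (MvPolynomial.aeval f : MvPolynomial X 𝒪 →ₐ[𝒪] A)) ∘ taut _ = f := by
    funext x
    simp [taut]
  rw [this]
  exact hf

theorem fam_mLam [Finite (ResidueField 𝒪)] (hP : IsRepFunctor 𝒪 X f0 P) :
    Fam f0 P (mLam f0) :=
  fam_ker hP isTest_residueField hP.base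

end

end Fermat.Agent.S53.Rep
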