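import Fermat.Agent.S53.Rep.Tangent

set_option autoImplicit false
set_option linter.style.haveILetI false
set_option linter.unusedSectionVars false

namespace Fermat.Agent.S53.Rep

open IsLocalRing GaloisRep

section

variable {𝒪 : Type} [CommRing 𝒪] [IsLocalRing 𝒪] {X : Type} {f0 : X → 𝒪}
  {P : ∀ ⦃A : Type⦄ [CommRing A] [IsLocalRing A] [Algebra 𝒪 A], (X → A) → Prop}

theorem exists_generators [IsNoetherianRing 𝒪] [Finite (ResidueField 𝒪)]
    (hP : IsRepFunctor 𝒪 X f0 P) :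
    ∃ Z : Finset (MvPolynomial X 𝒪), (∀ z ∈ Z, z ∈ mLam f0) ∧
      ∀ I, Fam f0 P I → mLam f0 ≤ I ⊔ Ideal.span (Z : Set (MvPolynomial X 𝒪)) ⊔ mLam f0 ^ 2 := by
  classical
  obtain ⟨Iε, hIε, hmin⟩ := exists_tangent_ideal hP
  have := hIε.adm.finite
  have := Fintype.ofFinite (MvPolynomial X 𝒪 ⧸ Iε)
  obtain ⟨s₀, hs₀⟩ := (maximalIdeal 𝒪).fg_of_isNoetherianRing
  let Z₁ : Finset (MvPolynomial X 𝒪) :=
    (Finset.univ.image (fun c : MvPolynomial X 𝒪 ⧸ Iε => Quotient.out c)).filter (· ∈ mLam f0)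
  let Z₂ : Finset (MvPolynomial X 𝒪) := s₀.image MvPolynomial.C
  have h1 : mLam f0 ≤ Iε ⊔ Ideal.span (Z₁ : Set (MvPolynomial X 𝒪)) := by
    intro p hp
    let z := Quotient.out (Ideal.Quotient.mk Iε p)
    have hz : Ideal.Quotient.mk Iε z = Ideal.Quotient.mk Iε p := Ideal.Quotient.mk_out _
    have hzp : z - p ∈ Iε := Ideal.Quotient.eq.mp hz
    have hzm : z ∈ mLam f0 := by
      have := (mLam f0).add_mem (hIε.adm.le hzp) hp
      simpa using this
    have hzZ : z ∈ Z₁ := by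
      simp only [Z₁, Finset.mem_filter, Finset.mem_image, Finset.mem_univ, true_and]
      exact ⟨⟨_, rfl⟩, hzm⟩
    have : p = -(z - p) + z := by ring
    rw [this]
    exact Submodule.add_mem_sup (Iε.neg_mem hzp) (Ideal.subset_span hzZ)
  have h2 : (maximalIdeal 𝒪).map (MvPolynomial.C : 𝒪 →+* MvPolynomial X 𝒪) =
      Ideal.span (Z₂ : Set (MvPolynomial X 𝒪)) := by
    rw [← hs₀, Ideal.map_span]
    simp [Z₂]
  refine ⟨Z₁ ∪ Z₂, ?_, ?_⟩
  · intro z hz
    rcases Finset.mem_union.mp hz with hz | hz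
    · exact (Finset.mem_filter.mp hz).2
    · have : z ∈ Ideal.span (Z₂ : Set (MvPolynomial X 𝒪)) := Ideal.subset_span hz
      rw [← h2] at this
      exact map_C_le_mLam this
  · intro I hI
    have hZ : Ideal.span ((Z₁ ∪ Z₂ : Finset (MvPolynomial X 𝒪)) : Set (MvPolynomial X 𝒪)) =
        Ideal.span (Z₁ : Set (MvPolynomial X 𝒪)) ⊔ Ideal.span (Z₂ : Set (MvPolynomial X 𝒪)) := by
      rw [Finset.coe_union, Ideal.span_union]
    rw [hZ, ← h2]
    refine h1.trans (sup_le ((hmin I hI).trans ?_) ?_)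
    · refine sup_le (sup_le ?_ le_sup_right) ?_
      · exact le_sup_left.trans le_sup_left
      · exact (le_sup_right.trans le_sup_right).trans le_sup_left
    · exact (le_sup_left.trans le_sup_right).trans le_sup_left

theorem maximalIdeal_eq_span {Z : Finset (MvPolynomial X 𝒪)} (hZ : ∀ z ∈ Z, z ∈ mLam f0)
    {I : Ideal (MvPolynomial X 𝒪)} (a : Adm f0 I)
    (hI : mLam f0 ≤ I ⊔ Ideal.span (Z : Set (MvPolynomial X 𝒪)) ⊔ mLam f0 ^ 2)
    [IsLocalRing (MvPolynomial X 𝒪 ⧸ I)] :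
    maximalIdeal (MvPolynomial X 𝒪 ⧸ I) =
      (Ideal.span (Z : Set (MvPolynomial X 𝒪))).map (Ideal.Quotient.mk I) := by
  have := a.finite
  apply le_antisymm
  · apply Submodule.le_of_le_smul_of_le_jacobson_bot (I := maximalIdeal (MvPolynomial X 𝒪 ⧸ I))
      (IsNoetherian.noetherian _) (maximalIdeal_le_jacobson _)
    rw [smul_eq_mul, ← pow_two]
    rw [a.maximalIdeal_eq, ← Ideal.map_pow]
    refine (Ideal.map_mono hI).trans ?_
    rw [Ideal.map_sup, Ideal.map_sup]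
    have : I.map (Ideal.Quotient.mk I) = ⊥ := by simp
    rw [this, bot_sup_eq]
  · rw [a.maximalIdeal_eq]
    apply Ideal.map_mono
    rw [Ideal.span_le]
    exact hZ

theorem card_quotient_le [Finite (ResidueField 𝒪)] {Z : Finset (MvPolynomial X 𝒪)}
    (hZ : ∀ z ∈ Z, z ∈ mLam f0)
    {I : Ideal (MvPolynomial X 𝒪)} (a : Adm f0 I)
    (hI : mLam f0 ≤ I ⊔ Ideal.span (Z : Set (MvPolynomial X 𝒪)) ⊔ mLam f0 ^ 2)
    {n : ℕ} (hn : mLam f0 ^ n ≤ I) :
    Nat.card (MvPolynomial X 𝒪 ⧸ I) ≤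
      Nat.card (ResidueField 𝒪) ^ ∑ i ∈ Finset.range n, Z.card ^ i := by
  classical
  have := a.isLocalRing
  have := a.finite
  have hspan := maximalIdeal_eq_span hZ a hI
  let s : Finset (MvPolynomial X 𝒪 ⧸ I) := Z.image (Ideal.Quotient.mk I)
  have hs : Ideal.span (s : Set (MvPolynomial X 𝒪 ⧸ I)) = maximalIdeal (MvPolynomial X 𝒪 ⧸ I) := by
    rw [hspan, Ideal.map_span]
    simp [s]
  have hfin : Finite ((MvPolynomial X 𝒪 ⧸ I) ⧸ maximalIdeal (MvPolynomial X 𝒪 ⧸ I)) :=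
    Finite.of_surjective _ Ideal.Quotient.mk_surjective
  have key := Ideal.index_pow_le s hs n
  have hpow : maximalIdeal (MvPolynomial X 𝒪 ⧸ I) ^ n = ⊥ := by
    rw [a.maximalIdeal_eq, ← Ideal.map_pow, Ideal.map_eq_bot_iff_le_ker, Ideal.mk_ker]
    exact hn
  rw [hpow, Submodule.bot_toAddSubgroup, AddSubgroup.index_bot] at key
  have hidx : (Submodule.toAddSubgroup (maximalIdeal (MvPolynomial X 𝒪 ⧸ I))).index ≤
      Nat.card (ResidueField 𝒪) := by
    have hloc := a.isTest.isLocalHom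
    change Nat.card (ResidueField (MvPolynomial X 𝒪 ⧸ I)) ≤ _
    refine Nat.card_le_card_of_surjective
      (ResidueField.map (algebraMap 𝒪 (MvPolynomial X 𝒪 ⧸ I))) ?_
    intro y
    obtain ⟨o, ho⟩ := a.isTest.residue_surjective y
    exact ⟨residue 𝒪 o, by rw [ResidueField.map_residue]; exact ho⟩
  have hpos : 0 < Nat.card (ResidueField 𝒪) := Nat.card_pos
  calc Nat.card (MvPolynomial X 𝒪 ⧸ I)
      ≤ _ := key
    _ ≤ Nat.card (ResidueField 𝒪) ^ ∑ i ∈ Finset.range n, s.card ^ i :=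
        Nat.pow_le_pow_left hidx _
    _ ≤ Nat.card (ResidueField 𝒪) ^ ∑ i ∈ Finset.range n, Z.card ^ i := by
        apply Nat.pow_le_pow_right hpos
        apply Finset.sum_le_sum
        intro i _
        exact Nat.pow_le_pow_left Finset.card_image_le i

theorem exists_least [IsNoetherianRing 𝒪] [Finite (ResidueField 𝒪)]
    (hP : IsRepFunctor 𝒪 X f0 P) (n : ℕ) :
    ∃ J, Fam f0 P J ∧ mLam f0 ^ (n + 1) ≤ J ∧
      ∀ I, Fam f0 P I → mLam f0 ^ (n + 1) ≤ I → J ≤ I := by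
  obtain ⟨Z, hZ, hgen⟩ := exists_generators hP
  let V : Set ℕ := {c | ∃ I, Fam f0 P I ∧ mLam f0 ^ (n + 1) ≤ I ∧
    c = Nat.card (MvPolynomial X 𝒪 ⧸ I)}
  have hne : V.Nonempty :=
    ⟨_, mLam f0, fam_mLam hP, Ideal.pow_le_self (by omega), rfl⟩
  have hbdd : BddAbove V := by
    refine ⟨Nat.card (ResidueField 𝒪) ^ ∑ i ∈ Finset.range (n + 1), Z.card ^ i, ?_⟩
    rintro c ⟨I, hI, hn, rfl⟩
    exact card_quotient_le hZ hI.adm (hgen I hI) hn
  obtain ⟨J, hJ, hJn, hJc⟩ := Nat.sSup_mem hne hbdd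
  refine ⟨J, hJ, hJn, fun I hI hIn => ?_⟩
  have hIJ : Fam f0 P (I ⊓ J) := hI.inf hP hJ
  have hle : Nat.card (MvPolynomial X 𝒪 ⧸ (I ⊓ J)) ≤ Nat.card (MvPolynomial X 𝒪 ⧸ J) := by
    rw [← hJc]
    exact le_csSup hbdd ⟨I ⊓ J, hIJ, le_inf hIn hJn, rfl⟩
  have := hIJ.adm.finite
  have hbij := Function.Surjective.bijective_of_nat_card_le
    (Ideal.Quotient.factor_surjective (inf_le_right : I ⊓ J ≤ J)) hle
  intro p hp
  have h0 : Ideal.Quotient.factor (inf_le_right : I ⊓ J ≤ J) (Ideal.Quotient.mk (I ⊓ J) p) =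
      Ideal.Quotient.factor (inf_le_right : I ⊓ J ≤ J) 0 := by
    rw [Ideal.Quotient.factor_mk, map_zero, Ideal.Quotient.eq_zero_iff_mem]
    exact hp
  have h1 := hbij.1 h0
  rw [Ideal.Quotient.eq_zero_iff_mem] at h1
  exact h1.1

end

end Fermat.Agent.S53.Rep
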