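import Fermat.Agent.S53.Rep.Family
set_option autoImplicit false
set_option linter.style.haveILetI false
set_option linter.unusedSectionVars false
namespace Fermat.Agent.S53.Rep
open IsLocalRing GaloisRep
variable {𝒪 : Type} [CommRing 𝒪] [IsLocalRing 𝒪]


theorem exists_algHom_dualNumber {B : Type} [CommRing B] [IsLocalRing B] [Algebra 𝒪 B]
    (hB : IsArtinianTestAlgebra 𝒪 B)
    (hπ : ∀ o ∈ maximalIdeal 𝒪, algebraMap 𝒪 B o = 0)
    (hsq : ∀ x ∈ maximalIdeal B, ∀ y ∈ maximalIdeal B, x * y = 0)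
    {b : B} (hb : b ∈ maximalIdeal B) (hb0 : b ≠ 0) :
    letI := dualAlg 𝒪
    ∃ φ : B →ₐ[𝒪] DualNumber (ResidueField 𝒪), φ b ≠ 0 := by
  letI := dualAlg 𝒪
  have := hB.isLocalHom
  -- the isomorphism of residue fields
  have hbij : Function.Bijective (ResidueField.map (algebraMap 𝒪 B)) := by
    refine ⟨RingHom.injective _, fun y => ?_⟩
    obtain ⟨o, ho⟩ := hB.residue_surjective y
    exact ⟨residue 𝒪 o, by rw [ResidueField.map_residue]; exact ho⟩
  let e : ResidueField 𝒪 ≃+* ResidueField B := RingEquiv.ofBijective _ hbij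
  let θ : B →+* ResidueField 𝒪 := (e.symm : ResidueField B →+* ResidueField 𝒪).comp (residue B)
  let ι : ResidueField 𝒪 →+* B := Ideal.Quotient.lift (maximalIdeal 𝒪) (algebraMap 𝒪 B) hπ
  have hι : ∀ o, ι (residue 𝒪 o) = algebraMap 𝒪 B o := fun o => rfl
  have hθ : ∀ o, θ (algebraMap 𝒪 B o) = residue 𝒪 o := by
    intro o
    change e.symm (residue B (algebraMap 𝒪 B o)) = residue 𝒪 o
    rw [RingEquiv.symm_apply_eq]
    exact (ResidueField.map_residue _ _).symm
  have hθι : ∀ c, θ (ι c) = c := by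
    intro c
    obtain ⟨o, rfl⟩ := residue_surjective c
    rw [hι, hθ]
  have hθ0 : ∀ y, θ y = 0 ↔ y ∈ maximalIdeal B := by
    intro y
    change e.symm (residue B y) = 0 ↔ _
    rw [map_eq_zero_iff _ e.symm.injective, residue_eq_zero_iff]
  have hδ : ∀ y, y - ι (θ y) ∈ maximalIdeal B := by
    intro y
    rw [← hθ0, map_sub, hθι, sub_self]
  letI : Algebra (ResidueField 𝒪) B := ι.toAlgebra
  obtain ⟨l, hl⟩ : ∃ l : Module.Dual (ResidueField 𝒪) B, l b ≠ 0 := by
    by_contra hcon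
    push Not at hcon
    exact hb0 ((Module.forall_dual_apply_eq_zero_iff (ResidueField 𝒪) b).mp hcon)
  have hsmul : ∀ (c : ResidueField 𝒪) (y : B), c • y = ι c * y := fun c y => rfl
  let δ : B → B := fun y => y - ι (θ y)
  have hδmul : ∀ y y', δ (y * y') = θ y • δ y' + θ y' • δ y := by
    intro y y'
    have h0 := hsq _ (hδ y) _ (hδ y')
    simp only [δ, map_mul, hsmul]
    linear_combination h0
  have hδadd : ∀ y y', δ (y + y') = δ y + δ y' := by
    intro y y'
    simp only [δ, map_add]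
    ring
  have hδalg : ∀ o, δ (algebraMap 𝒪 B o) = 0 := by
    intro o
    simp only [δ, hθ, hι, sub_self]
  let φ : B →ₐ[𝒪] DualNumber (ResidueField 𝒪) :=
    { toFun := fun y => TrivSqZeroExt.inl (θ y) + TrivSqZeroExt.inr (l (δ y))
      map_one' := by
        have h1 : δ 1 = 0 := by simpa using hδalg 1
        simp [h1]
      map_mul' := by
        intro y y'
        apply TrivSqZeroExt.ext
        · simp
        · simp [hδmul, mul_comm]
      map_zero' := by
        have h1 : δ 0 = 0 := by simpa using hδalg 0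
        simp [h1]
      map_add' := by
        intro y y'
        apply TrivSqZeroExt.ext
        · simp
        · simp [hδadd]
      commutes' := by
        intro o
        simp only [hδalg, hθ, map_zero, TrivSqZeroExt.inr_zero, add_zero]
        rfl }
  refine ⟨φ, fun h => hl ?_⟩
  have h1 : (φ b).snd = l (δ b) := by simp [φ]
  have h2 : δ b = b := by
    simp only [δ, (hθ0 b).mpr hb, map_zero, sub_zero]
  rw [← h2, ← h1, h]
  rfl

section

variable {X : Type} {f0 : X → 𝒪}
  {P : ∀ ⦃A : Type⦄ [CommRing A] [IsLocalRing A] [Algebra 𝒪 A], (X → A) → Prop}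

theorem fam_finset_inf [Finite (ResidueField 𝒪)] (hP : IsRepFunctor 𝒪 X f0 P) {ι : Type}
    (s : Finset ι) (g : ι → Ideal (MvPolynomial X 𝒪)) (hg : ∀ i ∈ s, Fam f0 P (g i)) :
    Fam f0 P (mLam f0 ⊓ s.inf g) := by
  classical
  induction s using Finset.induction_on with
  | empty => simpa using fam_mLam hP
  | insert a s _ ih =>
    have h1 := ih (fun i hi => hg i (Finset.mem_insert_of_mem hi))
    have h2 := hg a (Finset.mem_insert_self a s)
    have h3 := h2.inf hP h1
    have : mLam f0 ⊓ (insert a s).inf g = g a ⊓ (mLam f0 ⊓ s.inf g) := by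
      rw [Finset.inf_insert, inf_left_comm]
    rw [this]
    exact h3

theorem map_C_le_mLam : (maximalIdeal 𝒪).map (MvPolynomial.C : 𝒪 →+* MvPolynomial X 𝒪) ≤ mLam f0 := by
  rw [Ideal.map_le_iff_le_comap]
  intro o ho
  exact (C_mem_mLam f0).mpr ho

theorem exists_tangent_ideal [Finite (ResidueField 𝒪)] (hP : IsRepFunctor 𝒪 X f0 P) :
    ∃ Iε, Fam f0 P Iε ∧ ∀ I, Fam f0 P I →
      Iε ≤ I ⊔ mLam f0 ^ 2 ⊔ (maximalIdeal 𝒪).map MvPolynomial.C := by
  letI := dualAlg 𝒪
  have hT : Set.Finite {f : X → DualNumber (ResidueField 𝒪) | P f} := hP.tangent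
  have hE : IsArtinianTestAlgebra 𝒪 (DualNumber (ResidueField 𝒪)) := isTest_dualNumber
  let g : (X → DualNumber (ResidueField 𝒪)) → Ideal (MvPolynomial X 𝒪) := fun f =>
    RingHom.ker (MvPolynomial.aeval f : MvPolynomial X 𝒪 →ₐ[𝒪] DualNumber (ResidueField 𝒪))
  refine ⟨mLam f0 ⊓ hT.toFinset.inf g, fam_finset_inf hP _ _ ?_, ?_⟩
  · intro f hf
    exact fam_ker hP hE (hT.mem_toFinset.mp hf)
  · intro I hI p hp
    set I' := I ⊔ mLam f0 ^ 2 ⊔ (maximalIdeal 𝒪).map MvPolynomial.C with hI'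
    have hle : I' ≤ mLam f0 :=
      sup_le (sup_le hI.adm.le (Ideal.pow_le_self (by norm_num))) map_C_le_mLam
    have hF : Fam f0 P I' := hI.mono hP (le_sup_left.trans le_sup_left) hle
    have a := hF.adm
    have := a.isLocalRing
    by_contra hpn
    have hb0 : Ideal.Quotient.mk I' p ≠ 0 := fun h => hpn (Ideal.Quotient.eq_zero_iff_mem.mp h)
    have hb : Ideal.Quotient.mk I' p ∈ maximalIdeal (MvPolynomial X 𝒪 ⧸ I') :=
      (a.mk_mem_maximalIdeal p).mpr hp.1
    have hπ : ∀ o ∈ maximalIdeal 𝒪, algebraMap 𝒪 (MvPolynomial X 𝒪 ⧸ I') o = 0 := by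
      intro o ho
      change Ideal.Quotient.mk I' (MvPolynomial.C o) = 0
      rw [Ideal.Quotient.eq_zero_iff_mem]
      exact le_sup_right (a := I ⊔ mLam f0 ^ 2) (Ideal.mem_map_of_mem _ ho)
    have hsq : ∀ x ∈ maximalIdeal (MvPolynomial X 𝒪 ⧸ I'),
        ∀ y ∈ maximalIdeal (MvPolynomial X 𝒪 ⧸ I'), x * y = 0 := by
      intro x hx y hy
      obtain ⟨q, rfl⟩ := Ideal.Quotient.mk_surjective x
      obtain ⟨q', rfl⟩ := Ideal.Quotient.mk_surjective y
      rw [a.mk_mem_maximalIdeal] at hx hy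
      rw [← map_mul, Ideal.Quotient.eq_zero_iff_mem]
      apply le_sup_left (b := (maximalIdeal 𝒪).map MvPolynomial.C)
      apply le_sup_right (a := I)
      rw [pow_two]
      exact Ideal.mul_mem_mul hx hy
    obtain ⟨φ, hφ⟩ := exists_algHom_dualNumber a.isTest hπ hsq hb hb0
    have hPf : P (φ ∘ taut I') := hP.push a.isTest hE φ hF.prop
    have h0 : hT.toFinset.inf g ≤ g (φ ∘ taut I') := Finset.inf_le (hT.mem_toFinset.mpr hPf)
    have h1 : p ∈ g (φ ∘ taut I') := h0 hp.2
    have h2 : (MvPolynomial.aeval (φ ∘ taut I') :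
        MvPolynomial X 𝒪 →ₐ[𝒪] DualNumber (ResidueField 𝒪)) =
        φ.comp (Ideal.Quotient.mkₐ 𝒪 I') := by
      apply MvPolynomial.algHom_ext
      intro x
      simp [taut]
    rw [RingHom.mem_ker] at h1
    apply hφ
    have h3 := congrArg (fun ψ => ψ p) h2
    simp only [AlgHom.comp_apply, Ideal.Quotient.mkₐ_eq_mk] at h3
    rw [← h3]
    exact h1

end

end Fermat.Agent.S53.Rep
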